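import Fermat.Agent.TW.Euler.Ind.Defs

/-!
# (EU-1) Contracts of the abstract induction theorem

* `BrauerNesbittOut` (node EU-1a): an additive invariant takes the same value on two
  representations of a finite group over a finite field whose elements have the same
  characteristic polynomials.
* `InductionOut` (node EU-1): an additive invariant vanishing on all `X ⊗ k[G/D]`
  (`= permTwist ρ (G ⧸ D)`), `D` cyclic of order prime to `p`, vanishes identically.
-/

set_option autoImplicit false

namespace Fermat.Agent.TW.Euler

/-- **(EU-1a) Brauer–Nesbitt form.** -/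
def BrauerNesbittOut : Prop :=
  ∀ (k G : Type) [Field k] [Finite k] [Group G] [Finite G] (Φ : AddInv k G)
    (V W : Type) [AddCommGroup V] [Module k V] [Module.Finite k V]
    [AddCommGroup W] [Module k W] [Module.Finite k W]
    (ρ : Representation k G V) (σ : Representation k G W),
    (∀ g : G, LinearMap.charpoly (ρ g) = LinearMap.charpoly (σ g)) → Φ.val V ρ = Φ.val W σ

/-- **(EU-1) The abstract induction theorem.** -/
def InductionOut : Prop :=
  ∀ (p : ℕ) [Fact p.Prime] (k G : Type) [Field k] [Finite k] [CharP k p] [Group G] [Finite G]
    (Φ : AddInv k G),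
    (∀ (D : Subgroup G), IsCyclic D → ¬ p ∣ Nat.card D →
      ∀ (V : Type) [AddCommGroup V] [Module k V] [Module.Finite k V] (ρ : Representation k G V),
        Φ.val (G ⧸ D → V) (permTwist ρ (G ⧸ D)) = 0) →
    ∀ (V : Type) [AddCommGroup V] [Module k V] [Module.Finite k V] (ρ : Representation k G V),
      Φ.val V ρ = 0

end Fermat.Agent.TW.Euler
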