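import Mathlib

/-!
# (EU-1) Additive invariants of finite-dimensional representations: definitions

* `AddInv k G`: a `ℤ`-valued function on finite-dimensional representations of `G` over `k`
  (unbundled, universe `0`), invariant under isomorphism and additive on short exact sequences.
* `permTwist ρ Ω`: the representation of `G` on `Ω → V`, `(g • f) ω = ρ g (f (g⁻¹ • ω))`
  (`= V ⊗ k[Ω]` for finite `Ω`; for `Ω = G ⧸ D` it is the module (co)induced from `D`).
-/

set_option autoImplicit false

namespace Fermat.Agent.TW.Euler

/-- An additive invariant of finite-dimensional `k`-representations of `G`. -/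
structure AddInv (k G : Type) [Field k] [Group G] where
  /-- the value on a representation -/
  val : ∀ (V : Type) [AddCommGroup V] [Module k V] [Module.Finite k V],
    Representation k G V → ℤ
  /-- invariance under isomorphism -/
  val_congr : ∀ {V W : Type} [AddCommGroup V] [Module k V] [Module.Finite k V]
    [AddCommGroup W] [Module k W] [Module.Finite k W]
    (ρ : Representation k G V) (σ : Representation k G W) (e : V ≃ₗ[k] W),
    (∀ g v, e (ρ g v) = σ g (e v)) → val V ρ = val W σ
  /-- additivity on short exact sequences -/
  val_exact : ∀ {V₁ V₂ V₃ : Type} [AddCommGroup V₁] [Module k V₁] [Module.Finite k V₁]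
    [AddCommGroup V₂] [Module k V₂] [Module.Finite k V₂]
    [AddCommGroup V₃] [Module k V₃] [Module.Finite k V₃]
    (ρ₁ : Representation k G V₁) (ρ₂ : Representation k G V₂) (ρ₃ : Representation k G V₃)
    (f : V₁ →ₗ[k] V₂) (h : V₂ →ₗ[k] V₃),
    (∀ g v, f (ρ₁ g v) = ρ₂ g (f v)) → (∀ g v, h (ρ₂ g v) = ρ₃ g (h v)) →
    Function.Injective f → Function.Surjective h → Function.Exact f h →
    val V₂ ρ₂ = val V₁ ρ₁ + val V₃ ρ₃

section permTwist

variable {k G : Type} [Field k] [Group G] {V : Type} [AddCommGroup V] [Module k V]

/-- The representation of `G` on `Ω → V` given by `(g • f) ω = ρ g (f (g⁻¹ • ω))`. -/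
def permTwist (ρ : Representation k G V) (Ω : Type) [MulAction G Ω] :
    Representation k G (Ω → V) where
  toFun g :=
    { toFun := fun f ω => ρ g (f (g⁻¹ • ω))
      map_add' := fun f f' => by
        funext ω
        simp
      map_smul' := fun c f => by
        funext ω
        simp }
  map_one' := by
    apply LinearMap.ext
    intro f
    funext ω
    simp
  map_mul' g h := by
    apply LinearMap.ext
    intro f
    funext ω
    simp [mul_smul]

@[simp]
lemma permTwist_apply (ρ : Representation k G V) (Ω : Type) [MulAction G Ω] (g : G)
    (f : Ω → V) (ω : Ω) : permTwist ρ Ω g f ω = ρ g (f (g⁻¹ • ω)) := rfl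

end permTwist

end Fermat.Agent.TW.Euler
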