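/-
Program G (S56), block GW-Euler, node (EU-1)(c).  helper6.
The characteristic polynomial of `g` on `permTwist ρ Ω` depends only on the fixed-point counts of
the powers of `g` on `Ω`: equal counts ⇒ same cycle type ⇒ a `g`-equivariant bijection.
-/
import Fermat.Agent.TW.Euler.Ind.Defs

set_option autoImplicit false

namespace Fermat.Agent.TW.Euler

open Equiv Equiv.Perm Finset

section Multiset

/-- A multiset of naturals `≥ 2` is determined by the sums of its non-divisors of `l`, `l : ℕ`. -/
theorem multiset_eq_of_filter_sum_eq (m m' : Multiset ℕ) (hm : ∀ d ∈ m, 2 ≤ d)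
    (hm' : ∀ d ∈ m', 2 ≤ d)
    (h : ∀ l : ℕ, (m.filter (fun d => ¬ d ∣ l)).sum = (m'.filter (fun d => ¬ d ∣ l)).sum) :
    m = m' := by
  classical
  -- total sums
  have hsum : ∀ (n : Multiset ℕ), (∀ d ∈ n, 2 ≤ d) → (n.filter (fun d => ¬ d ∣ 1)).sum = n.sum := by
    intro n hn
    congr 1
    refine Multiset.filter_eq_self.mpr ?_
    intro d hd hd1
    have := hn d hd
    have := Nat.dvd_one.mp hd1
    omega
  have htot : m.sum = m'.sum := by rw [← hsum m hm, ← hsum m' hm', h 1]
  -- divisor sums
  have hT : ∀ l : ℕ, (m.filter (fun d => d ∣ l)).sum = (m'.filter (fun d => d ∣ l)).sum := by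
    intro l
    have e1 := congrArg Multiset.sum (Multiset.filter_add_not (fun d => d ∣ l) m)
    have e2 := congrArg Multiset.sum (Multiset.filter_add_not (fun d => d ∣ l) m')
    rw [Multiset.sum_add] at e1 e2
    have := h l
    omega
  have hdiv : ∀ (n : Multiset ℕ) (l : ℕ), l ≠ 0 →
      (n.filter (fun d => d ∣ l)).sum = ∑ i ∈ l.divisors, n.count i * i := by
    intro n l hl
    rw [Finset.sum_multiset_count_of_subset (n.filter (fun d => d ∣ l)) l.divisors]
    · refine Finset.sum_congr rfl fun i hi => ?_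
      rw [Multiset.count_filter_of_pos (p := fun d => d ∣ l) (Nat.dvd_of_mem_divisors hi),
        smul_eq_mul]
    · intro i hi
      rw [Multiset.mem_toFinset, Multiset.mem_filter] at hi
      exact Nat.mem_divisors.mpr ⟨hi.2, hl⟩
  -- counts agree
  have hcount : ∀ d : ℕ, m.count d = m'.count d := by
    intro d
    induction d using Nat.strong_induction_on with
    | _ d ih =>
      rcases Nat.eq_zero_or_pos d with rfl | hd
      · rw [Multiset.count_eq_zero_of_notMem, Multiset.count_eq_zero_of_notMem]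
        · intro h0; have := hm' 0 h0; omega
        · intro h0; have := hm 0 h0; omega
      · have e := hT d
        rw [hdiv m d hd.ne', hdiv m' d hd.ne', ← Nat.cons_self_properDivisors hd.ne',
          Finset.sum_cons, Finset.sum_cons] at e
        have e' : ∑ i ∈ d.properDivisors, m.count i * i = ∑ i ∈ d.properDivisors, m'.count i * i := by
          refine Finset.sum_congr rfl fun i hi => ?_
          rw [ih i (Nat.mem_properDivisors.mp hi).2]
        rw [e'] at e
        have e'' : m.count d * d = m'.count d * d := Nat.add_right_cancel e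
        exact Nat.eq_of_mul_eq_mul_right hd e''
  exact Multiset.ext.mpr hcount

end Multiset

section CycleType

variable {α : Type*} [Fintype α] [DecidableEq α]

/-- The support of `σ ^ l` in terms of the cycle type. -/
theorem card_support_pow_eq (σ : Perm α) (l : ℕ) :
    #(σ ^ l).support = ((σ.cycleType.filter (fun d => ¬ d ∣ l)).sum) := by
  induction σ using cycle_induction_on with
  | base_one => simp
  | base_cycles σ hσ =>
    rw [hσ.cycleType]
    by_cases hd : orderOf σ ∣ l
    · have h1 : σ ^ l = 1 := orderOf_dvd_iff_pow_eq_one.mp hd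
      rw [h1, support_one, card_empty, Multiset.filter_singleton]
      rw [hσ.orderOf] at hd
      simp [hd]
    · have h1 := (hσ.support_pow_eq_iff).mpr hd
      rw [h1, Multiset.filter_singleton]
      rw [hσ.orderOf] at hd
      simp [hd]
  | induction_disjoint σ τ hd _ ihσ ihτ =>
    rw [hd.commute.mul_pow, (hd.pow_disjoint_pow l l).card_support_mul, ihσ, ihτ,
      hd.cycleType_mul, Multiset.filter_add, Multiset.sum_add]

/-- Equal fixed-point counts of all powers force equal cycle types. -/
theorem cycleType_eq_of_card_fixedPoints (σ τ : Perm α)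
    (h : ∀ l : ℕ, Nat.card (Function.fixedPoints ⇑(σ ^ l))
      = Nat.card (Function.fixedPoints ⇑(τ ^ l))) :
    σ.cycleType = τ.cycleType := by
  refine multiset_eq_of_filter_sum_eq _ _ (fun d hd => two_le_of_mem_cycleType hd)
    (fun d hd => two_le_of_mem_cycleType hd) ?_
  intro l
  rw [← card_support_pow_eq, ← card_support_pow_eq]
  have h1 := h l
  rw [Nat.card_eq_fintype_card, Nat.card_eq_fintype_card, card_fixedPoints, card_fixedPoints,
    sum_cycleType, sum_cycleType] at h1
  have h2 : #(σ ^ l).support ≤ Fintype.card α := Finset.card_le_univ _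
  have h3 : #(τ ^ l).support ≤ Fintype.card α := Finset.card_le_univ _
  omega

end CycleType

section Transport

/-- Two permutations of finite sets with equal fixed-point counts of all powers are conjugate by a
bijection. -/
theorem exists_equiv_of_card_fixedPoints {Ω Ω' : Type*} [Finite Ω] [Finite Ω']
    (σ : Perm Ω) (τ : Perm Ω')
    (h : ∀ l : ℕ, Nat.card (Function.fixedPoints ⇑(σ ^ l))
      = Nat.card (Function.fixedPoints ⇑(τ ^ l))) :
    ∃ e : Ω ≃ Ω', ∀ ω, e (σ ω) = τ (e ω) := by
  classical
  have : Fintype Ω := Fintype.ofFinite Ω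
  have : Fintype Ω' := Fintype.ofFinite Ω'
  -- cardinalities agree (`l = 0`)
  have hcard : Nat.card Ω = Nat.card Ω' := by
    have h0 := h 0
    simp only [pow_zero, coe_one, Function.fixedPoints_id] at h0
    rwa [Nat.card_congr (Equiv.Set.univ Ω), Nat.card_congr (Equiv.Set.univ Ω')] at h0
  obtain ⟨e₀⟩ := Finite.card_eq.mp hcard
  -- transport `τ` to `Ω`
  let τ₀ : Perm Ω := e₀.symm.permCongrHom τ
  have hτ₀ : ∀ (l : ℕ) (x : Ω), (τ₀ ^ l) x = e₀.symm ((τ ^ l) (e₀ x)) := by
    intro l x
    have : τ₀ ^ l = e₀.symm.permCongrHom (τ ^ l) := (map_pow _ _ _).symm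
    rw [this]
    simp [Equiv.permCongrHom]
  have hfix : ∀ l : ℕ, Nat.card (Function.fixedPoints ⇑(τ₀ ^ l))
      = Nat.card (Function.fixedPoints ⇑(τ ^ l)) := by
    intro l
    refine Nat.card_congr (e₀.subtypeEquiv ?_)
    intro x
    change (τ₀ ^ l) x = x ↔ (τ ^ l) (e₀ x) = e₀ x
    rw [hτ₀, Equiv.symm_apply_eq]
  have hct : σ.cycleType = τ₀.cycleType :=
    cycleType_eq_of_card_fixedPoints σ τ₀ (fun l => (h l).trans (hfix l).symm)
  obtain ⟨c, hc⟩ := isConj_iff.mp (isConj_iff_cycleType_eq.mpr hct)
  refine ⟨c.trans e₀, fun ω => ?_⟩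
  have h1 : c (σ ω) = τ₀ (c ω) := by
    have : c * σ = τ₀ * c := by rw [← hc]; group
    exact congrArg (fun f : Perm Ω => f ω) this
  have h2 := hτ₀ 1 (c ω)
  simp only [pow_one] at h2
  change e₀ (c (σ ω)) = τ (e₀ (c ω))
  rw [h1, h2, Equiv.apply_symm_apply]

end Transport

section Main

variable {k G : Type} [Field k] [Group G] {V : Type} [AddCommGroup V] [Module k V]

/-- A `g`-equivariant bijection from equal fixed-point counts of the powers of `g`. -/
theorem exists_equiv_of_card_fixedBy (Ω Ω' : Type) [MulAction G Ω] [MulAction G Ω'] [Finite Ω]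
    [Finite Ω'] (g : G)
    (h : ∀ l : ℕ, Nat.card (MulAction.fixedBy Ω (g ^ l)) = Nat.card (MulAction.fixedBy Ω' (g ^ l))) :
    ∃ e : Ω ≃ Ω', ∀ ω, e (g • ω) = g • e ω := by
  refine exists_equiv_of_card_fixedPoints (MulAction.toPerm g) (MulAction.toPerm g) ?_
  intro l
  have h1 : ∀ (X : Type) [MulAction G X],
      Function.fixedPoints ⇑((MulAction.toPerm g : Perm X) ^ l) = MulAction.fixedBy X (g ^ l) := by
    intro X _
    have : (MulAction.toPerm g : Perm X) ^ l = MulAction.toPerm (g ^ l) :=
      (map_pow (MulAction.toPermHom G X) g l).symm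
    rw [this]
    rfl
  rw [h1 Ω, h1 Ω']
  exact h l

/-- **(EU-1)(c)**: the characteristic polynomial of `g` on `permTwist ρ Ω` depends only on the
fixed-point counts of the powers of `g` on `Ω`. -/
theorem charpoly_permTwist_eq_of_card_fixedBy [Module.Finite k V]
    (ρ : Representation k G V) (Ω Ω' : Type) [MulAction G Ω] [MulAction G Ω'] [Finite Ω]
    [Finite Ω'] (g : G)
    (h : ∀ l : ℕ, Nat.card (MulAction.fixedBy Ω (g ^ l)) = Nat.card (MulAction.fixedBy Ω' (g ^ l))) :
    LinearMap.charpoly (permTwist ρ Ω g) = LinearMap.charpoly (permTwist ρ Ω' g) := by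
  obtain ⟨e, he⟩ := exists_equiv_of_card_fixedBy Ω Ω' g h
  have he' : ∀ ω' : Ω', e.symm (g⁻¹ • ω') = g⁻¹ • e.symm ω' := by
    intro ω'
    rw [Equiv.symm_apply_eq, ← smul_left_cancel_iff g, ← he, smul_inv_smul, smul_inv_smul,
      Equiv.apply_symm_apply]
  let E : (Ω → V) ≃ₗ[k] (Ω' → V) := LinearEquiv.funCongrLeft k V e.symm
  have hconj : permTwist ρ Ω' g = E.conj (permTwist ρ Ω g) := by
    apply LinearMap.ext
    intro f
    funext ω'
    simp only [LinearEquiv.conj_apply, LinearMap.coe_comp, LinearEquiv.coe_coe,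
      Function.comp_apply, permTwist_apply]
    change ρ g (f (g⁻¹ • ω')) = ρ g ((E.symm f) (g⁻¹ • e.symm ω'))
    rw [← he' ω']
    change _ = ρ g (f (e.symm.symm (e.symm (g⁻¹ • ω'))))
    simp
  rw [hconj, LinearEquiv.charpoly_conj]

end Main

end Fermat.Agent.TW.Euler
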